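import Fermat.Agent.S37.II.Center
import Fermat.Agent.S37.II.ValRat
import Fermat.Agent.S37.II.Local.Sum

/-!
# S37 route II, node FL1 (finite level, C1): `u ≡ 1 mod ϖ`, all zeros and poles rational
`⟹ redDiv (div u) = 0`.    (task S37-II-FL1, helper187)
-/

set_option autoImplicit false

noncomputable section

namespace Fermat.Agent.S37.II

open AlgebraicCurve Fermat.Agent.S24 Fermat.Agent.S18 IntermediateField Polynomial

namespace One

/-! ### generalities -/

theorem mapDomain_apply {α β : Type*} [DecidableEq β] (f : α → β) (D : α →₀ ℤ) (y : β) :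
    Finsupp.mapDomain f D y = ∑ a ∈ D.support.filter (fun a => f a = y), D a := by
  rw [Finsupp.mapDomain, Finsupp.sum, Finsupp.finsetSum_apply, Finset.sum_filter]
  exact Finset.sum_congr rfl fun a _ => Finsupp.single_apply

variable {K F : Type*} [Field K] [Field F] [Algebra K F]
variable {A : ValuationSubring K} {ϖ₀ : K} {Ow : ValuationSubring F}

theorem red_of_inFin {x : F} {P : Place K F} (h : InFin A x P) :
    red A x P = Sum.inl fun b => resV A (val P b.1) := if_pos h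

theorem red_of_not_inFin {x : F} {P : Place K F} (h : ¬ InFin A x P) :
    red A x P = Sum.inr fun b => resV A (val P b.1) := if_neg h

theorem red_eq_iff_of_inFin {x : F} {w w₀ : Place K F} (h₀ : InFin A x w₀) :
    red A x w = red A x w₀ ↔ InFin A x w ∧
      ∀ b : chart A.toSubring x, resV A (val w b.1) = resV A (val w₀ b.1) := by
  rw [red_of_inFin h₀]
  by_cases h : InFin A x w
  · rw [red_of_inFin h, Sum.inl.injEq, funext_iff]
    exact ⟨fun H => ⟨h, H⟩, fun H => H.2⟩
  · rw [red_of_not_inFin h]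
    exact ⟨fun H => by simp at H, fun H => absurd H.1 h⟩

theorem red_eq_iff_of_not_inFin {x : F} {w w₀ : Place K F} (h₀ : ¬ InFin A x w₀) :
    red A x w = red A x w₀ ↔ ¬ InFin A x w ∧
      ∀ b : chart A.toSubring x⁻¹, resV A (val w b.1) = resV A (val w₀ b.1) := by
  rw [red_of_not_inFin h₀]
  by_cases h : InFin A x w
  · rw [red_of_inFin h]
    exact ⟨fun H => by simp at H, fun H => absurd h H.1⟩
  · rw [red_of_not_inFin h, Sum.inr.injEq, funext_iff]
    exact ⟨fun H => ⟨h, H⟩, fun H => H.2⟩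

theorem algebraMap_mem_chart (z : F) {a : K} (ha : a ∈ A) :
    algebraMap K F a ∈ chart A.toSubring z := by
  refine polyRing_le_chart _ _ ((mem_polyRing_iff _ _ _).2 ⟨C a, fun i => ?_, by simp⟩)
  rw [coeff_C]
  split_ifs
  · exact ha
  · exact A.zero_mem

theorem self_mem_chart (z : F) : z ∈ chart A.toSubring z := by
  refine polyRing_le_chart _ _ ((mem_polyRing_iff _ _ _).2 ⟨Polynomial.X, fun i => ?_, by simp⟩)
  rw [coeff_X]
  split_ifs
  · exact A.one_mem
  · exact A.zero_mem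

theorem unif_mem_nonunits (h₀ : IsUnif A ϖ₀) : ϖ₀ ∈ A.nonunits :=
  A.mem_nonunits_iff_or.mpr (Or.inr h₀.inv_notMem)

/-! ### one chart -/

open Classical in
/-- the contribution of one residue class of the chart `z` vanishes. -/
theorem chart_sum [CharZero K] [FF.IsFF1 K F] (h₀ : IsUnif A ϖ₀)
    (hw : IsUnif Ow (algebraMap K F ϖ₀)) (z : F)
    (hB : IsChart Ow (algebraMap K F ϖ₀) (chart A.toSubring z))
    (u : F) (hu : (u - 1) / algebraMap K F ϖ₀ ∈ Ow)
    (D : Divisor K F) (hD : ∀ v, D v = v.ord u) (hrat : ∀ v ∈ D.support, IsRat v)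
    (w₀ : Place K F) (hw₀ : IsRat w₀) (hin : InFin A z w₀) :
    ∑ w ∈ D.support.filter (fun w => InFin A z w ∧
      ∀ b : chart A.toSubring z, resV A (val w b.1) = resV A (val w₀ b.1)), D w = 0 := by
  obtain ⟨𝔫, h𝔫, hc₀⟩ := exists_center h₀ z w₀ hw₀ hin
  have hϖ : (⟨_, hB.unif_mem⟩ : chart A.toSubring z) ∈ 𝔫 := by
    rw [hc₀.2.2]
    show val w₀ (algebraMap K F ϖ₀) ∈ A.nonunits
    rw [val_algebraMap]
    exact unif_mem_nonunits h₀
  have hϖ' : ∀ b : chart A.toSubring z, (b : F) = algebraMap K F ϖ₀ → b ∈ 𝔫 := fun b hb => by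
    have : b = ⟨_, hB.unif_mem⟩ := Subtype.ext hb
    rw [this]
    exact hϖ
  obtain ⟨hu1, hu2⟩ := hw.mem_of_sub_one hu
  have hu0 : u ≠ 0 := by
    rintro rfl
    apply hw.inv_notMem
    have e : (algebraMap K F ϖ₀)⁻¹ = -((0 - 1) / algebraMap K F ϖ₀) := by
      rw [zero_sub, neg_div, neg_neg, one_div]
    rw [e]
    exact Ow.neg_mem _ hu
  set s := D.support.filter (fun w => InFin A z w ∧
      ∀ b : chart A.toSubring z, resV A (val w b.1) = resV A (val w₀ b.1)) with hs
  have hcen : ∀ w ∈ s, Centered A (chart A.toSubring z) 𝔫 w := by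
    intro w hws
    rw [hs, Finset.mem_filter] at hws
    obtain ⟨hwD, hwin, hres⟩ := hws
    have hwr := hrat w hwD
    have hval := val_mem_of_mem_chart A z w hwr hwin
    refine ⟨hwr, fun b => hval b.1 b.2, fun b => ?_⟩
    rw [hc₀.2.2 b, ← resV_eq_zero_iff A (hc₀.2.1 b).2, ← hres b,
      resV_eq_zero_iff A (hval b.1 b.2).2]
  have hall : ∀ w : Place K F, Through (chart A.toSubring z) 𝔫 w → w.ord u ≠ 0 → w ∈ s := by
    intro w hth hne
    have hwD : w ∈ D.support := by
      rw [Finsupp.mem_support_iff, hD]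
      exact hne
    obtain ⟨h1, h2⟩ := centered_of_through h₀ z 𝔫 h𝔫 hϖ' w (hrat w hwD) hth
    rw [hs, Finset.mem_filter]
    exact ⟨hwD, h1, fun b => resV_val_eq_of_centered z 𝔫 h2 hc₀ b⟩
  have hone : (1 : chart A.toSubring z) ∉ 𝔫 := (Ideal.ne_top_iff_one 𝔫).mp h𝔫.ne_top
  have key := (local_sum h₀ hw hB (fun a ha => algebraMap_mem_chart z ha) 𝔫 h𝔫 hϖ s hcen u
    hu0 hu1 hu2 hall).mpr ⟨1, 1, hone, hone, by
      have e : u * ((1 : chart A.toSubring z) : F) - ((1 : chart A.toSubring z) : F) = u - 1 := by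
        simp
      rw [e]
      exact hu⟩
  rw [← key]
  exact Finset.sum_congr rfl fun w _ => hD w

/-- on rational places: `x(w) ∉ A` and `w ≡ w₀` on the chart at infinity. -/
theorem not_inFin_and_iff {x : F} (hx : x ≠ 0) {w w₀ : Place K F} (hw : IsRat w) (hw₀ : IsRat w₀)
    (h₀ : ¬ InFin A x w₀) :
    (¬ InFin A x w ∧
      ∀ b : chart A.toSubring x⁻¹, resV A (val w b.1) = resV A (val w₀ b.1)) ↔
    (InFin A x⁻¹ w ∧
      ∀ b : chart A.toSubring x⁻¹, resV A (val w b.1) = resV A (val w₀ b.1)) := by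
  constructor
  · rintro ⟨h1, h2⟩
    obtain ⟨h3, h4⟩ := inv_of_not_inFin A x w hw h1
    exact ⟨⟨h3, A.nonunits_subset h4⟩, h2⟩
  · rintro ⟨⟨h1, h1'⟩, h2⟩
    refine ⟨?_, h2⟩
    rintro ⟨h3, h4⟩
    obtain ⟨-, h6⟩ := inv_of_not_inFin A x w₀ hw₀ h₀
    have h7 : val w x⁻¹ ∈ A.nonunits := by
      rw [← resV_eq_zero_iff A h1']
      have := h2 ⟨x⁻¹, self_mem_chart x⁻¹⟩
      rw [this]
      exact (resV_eq_zero_iff A (A.nonunits_subset h6)).mpr h6
    have hord : w.ord x = 0 := by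
      rw [w.ord_inv] at h1
      omega
    rw [val_inv_rat hw hord, ValuationSubring.inv_mem_nonunits_iff] at h7
    rcases h7 with h7 | h7
    · rcases (val_eq_zero_iff_rat hw h3).mp h7 with h8 | h8
      · exact hx h8
      · omega
    · exact h7 h4

end One

/-- **FL1**. -/
theorem redDiv_eq_zero_of_sub_one {K F : Type*} [Field K] [Field F] [Algebra K F]
    {A : ValuationSubring K} {ϖ₀ : K} {Ow : ValuationSubring F}
    [CharZero K] [FF.IsFF1 K F] {x : F}
    (hM : GoodModel A x ϖ₀ Ow) (u : F) (hu : (u - 1) / algebraMap K F ϖ₀ ∈ Ow)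
    (D : Divisor K F) (hD : ∀ v, D v = v.ord u) (hrat : ∀ v ∈ D.support, IsRat v) :
    redDiv A x D = 0 := by
  classical
  ext y
  rw [redDiv_apply, One.mapDomain_apply, Finsupp.zero_apply]
  by_cases hne : (D.support.filter (fun w => red A x w = y)).Nonempty
  · obtain ⟨w₀, hw₀⟩ := hne
    rw [Finset.mem_filter] at hw₀
    obtain ⟨hw₀D, rfl⟩ := hw₀
    have hw₀r := hrat w₀ hw₀D
    by_cases hin : InFin A x w₀
    · rw [← One.chart_sum hM.vert.unif₀ hM.vert.unif x hM.chart₁ u hu D hD hrat w₀ hw₀r hin]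
      refine Finset.sum_congr (Finset.filter_congr fun w _ => ?_) fun _ _ => rfl
      exact One.red_eq_iff_of_inFin hin
    · obtain ⟨h1, h2⟩ := inv_of_not_inFin A x w₀ hw₀r hin
      rw [← One.chart_sum hM.vert.unif₀ hM.vert.unif x⁻¹ hM.chart₂ u hu D hD hrat w₀ hw₀r
        ⟨h1, A.nonunits_subset h2⟩]
      refine Finset.sum_congr (Finset.filter_congr fun w hw => ?_) fun _ _ => rfl
      rw [One.red_eq_iff_of_not_inFin hin]
      exact One.not_inFin_and_iff hM.cover.x_ne (hrat w hw) hw₀r hin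
  · rw [Finset.not_nonempty_iff_eq_empty.mp hne, Finset.sum_empty]

end Fermat.Agent.S37.II

end
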