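import Fermat.Agent.S37.II.Finsupp
import Fermat.Agent.S37.II.ValRat
import Fermat.Agent.S37.II.Center
import Fermat.Agent.S37.II.Local.Sum
import Fermat.Agent.S37.II.Global

/-!
# S37 route II, node FL0: the finite level theorem C0 (owner helper191)

If `redDiv (div u) = 0` and all zeros and poles of `u` are rational, then `u = ϖ ^ k * u'` with
`u'` a unit of `Ow` whose residue class is algebraic over the residue field of `A`.
-/

set_option autoImplicit false

noncomputable section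

namespace Fermat.Agent.S37.II

open AlgebraicCurve Fermat.Agent.S24 Fermat.Agent.S18 IntermediateField Polynomial

section FL0

variable {K F : Type*} [Field K] [Field F] [Algebra K F]

variable {A : ValuationSubring K} {ϖ₀ : K} {Ow : ValuationSubring F}

/-- congruent arguments give congruent values of an integral polynomial -/
private theorem zero_aeval_sub {ϖ a b : F} (ha : a ∈ Ow) (hb : b ∈ Ow) (hab : (a - b) / ϖ ∈ Ow)
    (hA : ∀ c ∈ A, algebraMap K F c ∈ Ow) (p : K[X]) (hp : ∀ i, p.coeff i ∈ A) :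
    (aeval a p - aeval b p) / ϖ ∈ Ow := by
  rw [aeval_eq_sum_range, aeval_eq_sum_range, ← Finset.sum_sub_distrib, Finset.sum_div]
  refine sum_mem fun i _ => ?_
  obtain ⟨c, hc⟩ := sub_dvd_pow_sub_pow (⟨a, ha⟩ : Ow) ⟨b, hb⟩ i
  have hc' : a ^ i - b ^ i = (a - b) * (c : F) := by
    have := congrArg (Subtype.val) hc
    simpa using this
  have : (p.coeff i • a ^ i - p.coeff i • b ^ i) / ϖ
      = algebraMap K F (p.coeff i) * ((a - b) / ϖ * (c : F)) := by
    rw [Algebra.smul_def, Algebra.smul_def, ← mul_sub, hc']; ring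
  rw [this]
  exact Ow.mul_mem _ _ (hA _ (hp i)) (Ow.mul_mem _ _ hab c.2)

/-- the abstract local step: if the fibres of `r` on the support of `D = div u` are the sets of
places centred at a given maximal ideal, and `r_* D = 0`, then `u` is a unit at `𝔫` modulo `ϖ`. -/
private theorem zero_local_step [CharZero K] [FF.IsFF1 K F] (h₀ : IsUnif A ϖ₀)
    (hw : IsUnif Ow (algebraMap K F ϖ₀)) (z : F)
    (hB : IsChart Ow (algebraMap K F ϖ₀) (chart A.toSubring z))
    (hAB : ∀ a ∈ A, algebraMap K F a ∈ chart A.toSubring z)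
    (𝔫 : Ideal (chart A.toSubring z)) (h𝔫 : 𝔫.IsMaximal)
    (hϖ : (⟨_, hB.unif_mem⟩ : chart A.toSubring z) ∈ 𝔫)
    (u : F) (hu0 : u ≠ 0) (hu : u ∈ Ow) (hu' : u⁻¹ ∈ Ow)
    (D : Divisor K F) (hD : ∀ v, D v = v.ord u) (hrat : ∀ v ∈ D.support, IsRat v)
    {Y : Type*} (r : Place K F → Y) (hr0 : Finsupp.mapDomain r D = 0)
    (hr : ∀ w ∈ D.support, ∀ w' ∈ D.support, Centered A (chart A.toSubring z) 𝔫 w →
      (r w' = r w ↔ Centered A (chart A.toSubring z) 𝔫 w')) :
    ∃ a b : chart A.toSubring z, b ∉ 𝔫 ∧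
      (u * (b : F) - (a : F)) / algebraMap K F ϖ₀ ∈ Ow := by
  classical
  have hϖ' : ∀ b : chart A.toSubring z, (b : F) = algebraMap K F ϖ₀ → b ∈ 𝔫 := by
    intro b hb
    have : b = ⟨_, hB.unif_mem⟩ := Subtype.ext hb
    rw [this]; exact hϖ
  set s : Finset (Place K F) := D.support.filter (fun w => Through (chart A.toSubring z) 𝔫 w) with hs
  have hcent : ∀ w ∈ s, Centered A (chart A.toSubring z) 𝔫 w := by
    intro w hw'
    have h1 := Finset.mem_filter.mp hw'
    exact (centered_of_through h₀ z 𝔫 h𝔫 hϖ' w (hrat w h1.1) h1.2).2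
  have hall : ∀ w : Place K F, Through (chart A.toSubring z) 𝔫 w → w.ord u ≠ 0 → w ∈ s := by
    intro w hw1 hw2
    refine Finset.mem_filter.mpr ⟨?_, hw1⟩
    rw [Finsupp.mem_support_iff, hD]; exact hw2
  have hsum : ∑ w ∈ s, w.ord u = 0 := by
    rcases s.eq_empty_or_nonempty with he | ⟨w₀, hw₀⟩
    · rw [he]; simp
    · have hw₀D : w₀ ∈ D.support := (Finset.mem_filter.mp hw₀).1
      have hseq : s = D.support.filter (fun a => r a = r w₀) := by
        ext w
        constructor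
        · intro hw'
          exact Finset.mem_filter.mpr ⟨(Finset.mem_filter.mp hw').1,
            (hr w₀ hw₀D w (Finset.mem_filter.mp hw').1 (hcent w₀ hw₀)).mpr (hcent w hw')⟩
        · intro hw'
          have h1 := Finset.mem_filter.mp hw'
          exact Finset.mem_filter.mpr ⟨h1.1,
            through_of_centered ((hr w₀ hw₀D w h1.1 (hcent w₀ hw₀)).mp h1.2)⟩
      have h2 := mapDomain_apply_eq_sum r D (r w₀)
      rw [hr0, Finsupp.zero_apply, ← hseq] at h2
      rw [h2]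
      exact Finset.sum_congr rfl fun w _ => (hD w).symm
  obtain ⟨a, b, -, hb, hab⟩ :=
    (local_sum h₀ hw hB hAB 𝔫 h𝔫 hϖ s hcent u hu0 hu hu' hall).mp hsum
  exact ⟨a, b, hb, hab⟩

/-- a rational place with prescribed reduction function is centred at `𝔫` -/
private theorem zero_centered_of_resV_eq (z : F) (𝔫 : Ideal (chart A.toSubring z))
    {w w' : Place K F} (h : Centered A (chart A.toSubring z) 𝔫 w) (hw' : IsRat w')
    (hfin : InFin A z w')
    (heq : ∀ b : chart A.toSubring z, resV A (val w' (b : F)) = resV A (val w (b : F))) :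
    Centered A (chart A.toSubring z) 𝔫 w' := by
  have hmem := val_mem_of_mem_chart A z w' hw' hfin
  refine ⟨hw', fun b => hmem b b.2, fun b => ?_⟩
  rw [h.2.2 b, ← resV_eq_zero_iff A (h.2.1 b).2, ← resV_eq_zero_iff A (hmem b b.2).2, heq b]

theorem exists_monic_of_redDiv_eq_zero [CharZero K] [FF.IsFF1 K F] {x : F}
    (hM : GoodModel A x ϖ₀ Ow) (u : F) (hu : u ≠ 0)
    (D : Divisor K F) (hD : ∀ v, D v = v.ord u) (hrat : ∀ v ∈ D.support, IsRat v)
    (h : redDiv A x D = 0) :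
    ∃ (k : ℤ) (p : K[X]), p.Monic ∧ (∀ i, p.coeff i ∈ A) ∧
      u / algebraMap K F ϖ₀ ^ k ∈ Ow ∧ (u / algebraMap K F ϖ₀ ^ k)⁻¹ ∈ Ow ∧
      aeval (u / algebraMap K F ϖ₀ ^ k) p / algebraMap K F ϖ₀ ∈ Ow := by
  classical
  obtain ⟨k, hk1, hk2⟩ := hM.vert.unif.exists_zpow u hu
  set ϖ : F := algebraMap K F ϖ₀ with hϖdef
  set u' : F := u / ϖ ^ k with hu'def
  have hϖ0 : ϖ ≠ 0 := by
    intro h0
    apply hM.vert.unif.inv_notMem
    rw [← hϖdef, h0, inv_zero]; exact Ow.zero_mem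
  have hu'0 : u' ≠ 0 := div_ne_zero hu (zpow_ne_zero _ hϖ0)
  -- `u'` has the same divisor as `u`
  have hD' : ∀ v, D v = v.ord u' := by
    intro v
    rw [hD, hu'def, div_eq_mul_inv, v.ord_mul hu (inv_ne_zero (zpow_ne_zero _ hϖ0)), v.ord_inv,
      v.ord_zpow, hϖdef, FF.ord_algebraMap]
    simp
  have hr0 : Finsupp.mapDomain (red A x) D = 0 := h
  have hAB₁ : ∀ a ∈ A, algebraMap K F a ∈ chart A.toSubring x := fun a ha =>
    hM.cover.le₁ (Subring.mem_map.mpr ⟨a, ha, rfl⟩)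
  have hAB₂ : ∀ a ∈ A, algebraMap K F a ∈ chart A.toSubring x⁻¹ := fun a ha =>
    hM.cover.le₂ (Subring.mem_map.mpr ⟨a, ha, rfl⟩)
  -- first chart
  obtain ⟨b₁, hb₁⟩ : ∃ b : chart A.toSubring x, (u' - (b : F)) / ϖ ∈ Ow := by
    refine exists_mem_chart_of_local hM.vert.unif hM.chart₁ u' hk1 fun 𝔫 h𝔫 hϖ𝔫 => ?_
    refine zero_local_step hM.vert.unif₀ hM.vert.unif x hM.chart₁ hAB₁ 𝔫 h𝔫 hϖ𝔫 u' hu'0 hk1 hk2 D hD'
      hrat (red A x) hr0 ?_
    intro w _ w' hw'D hc
    have hfin : InFin A x w := hc.2.1 ⟨x, hM.cover.x_mem⟩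
    constructor
    · intro hred
      have hfin' : InFin A x w' := by
        by_contra hn
        rw [red, red, if_neg hn, if_pos hfin] at hred
        exact Sum.inr_ne_inl hred
      rw [red, red, if_pos hfin', if_pos hfin] at hred
      exact zero_centered_of_resV_eq x 𝔫 hc (hrat w' hw'D) hfin'
        (fun b => congrFun (Sum.inl_injective hred) b)
    · intro hc'
      have hfin' : InFin A x w' := hc'.2.1 ⟨x, hM.cover.x_mem⟩
      rw [red, red, if_pos hfin', if_pos hfin]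
      exact congrArg Sum.inl (funext fun b => resV_val_eq_of_centered x 𝔫 hc' hc b)
  -- second chart
  obtain ⟨b₂, hb₂⟩ : ∃ b : chart A.toSubring x⁻¹, (u' - (b : F)) / ϖ ∈ Ow := by
    refine exists_mem_chart_of_local hM.vert.unif hM.chart₂ u' hk1 fun 𝔫 h𝔫 hϖ𝔫 => ?_
    by_cases hx𝔫 : (⟨x⁻¹, hM.cover.inv_mem⟩ : chart A.toSubring x⁻¹) ∈ 𝔫
    · refine zero_local_step hM.vert.unif₀ hM.vert.unif x⁻¹ hM.chart₂ hAB₂ 𝔫 h𝔫 hϖ𝔫 u' hu'0 hk1 hk2 D
        hD' hrat (red A x) hr0 ?_
      -- places centred at `𝔫` are not in the finite region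
      have hnot : ∀ w : Place K F, Centered A (chart A.toSubring x⁻¹) 𝔫 w → ¬ InFin A x w := by
        intro w hc hfin
        have h1 : 0 ≤ w.ord x⁻¹ := (hc.2.1 ⟨x⁻¹, hM.cover.inv_mem⟩).1
        have h2 : val w x⁻¹ ∈ A.nonunits := (hc.2.2 ⟨x⁻¹, hM.cover.inv_mem⟩).mp hx𝔫
        have h3 : w.ord x = 0 := by
          rw [w.ord_inv] at h1
          have := hfin.1
          omega
        rw [val_inv_rat hc.1 h3] at h2
        have h4 : val w x ≠ 0 := by
          intro h0
          rcases (val_eq_zero_iff_rat hc.1 hfin.1).mp h0 with h5 | h5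
          · exact hM.cover.x_ne h5
          · omega
        rw [ValuationSubring.mem_nonunits_iff, map_inv₀] at h2
        have h6 : A.valuation (val w x) ≤ 1 := (A.valuation_le_one_iff _).mpr hfin.2
        have h7 : A.valuation (val w x) ≠ 0 := (Valuation.ne_zero_iff _).mpr h4
        have h8 : (1 : A.ValueGroup) ≤ (A.valuation (val w x))⁻¹ :=
          (one_le_inv₀ (zero_lt_iff.mpr h7)).mpr h6
        exact absurd h2 (not_lt.mpr h8)
      intro w _ w' hw'D hc
      have hfin : ¬ InFin A x w := hnot w hc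
      constructor
      · intro hred
        have hfin' : ¬ InFin A x w' := by
          intro hn
          rw [red, red, if_pos hn, if_neg hfin] at hred
          exact Sum.inl_ne_inr hred
        rw [red, red, if_neg hfin', if_neg hfin] at hred
        have h1 := inv_of_not_inFin A x w' (hrat w' hw'D) hfin'
        have h2 : InFin A x⁻¹ w' := ⟨h1.1, A.nonunits_subset h1.2⟩
        exact zero_centered_of_resV_eq x⁻¹ 𝔫 hc (hrat w' hw'D) h2
          (fun b => congrFun (Sum.inr_injective hred) b)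
      · intro hc'
        rw [red, red, if_neg (hnot w' hc'), if_neg hfin]
        exact congrArg Sum.inr (funext fun b => resV_val_eq_of_centered x⁻¹ 𝔫 hc' hc b)
    · obtain ⟨N, hN⟩ := hM.cover.overlap₁ b₁ b₁.2
      refine ⟨⟨_, hN⟩, (⟨x⁻¹, hM.cover.inv_mem⟩ : chart A.toSubring x⁻¹) ^ N, ?_, ?_⟩
      · exact fun hmem => hx𝔫 (h𝔫.isPrime.mem_of_pow_mem N hmem)
      · have : (u' * (((⟨x⁻¹, hM.cover.inv_mem⟩ : chart A.toSubring x⁻¹) ^ N :
            chart A.toSubring x⁻¹) : F) - x⁻¹ ^ N * (b₁ : F)) / ϖ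
            = x⁻¹ ^ N * ((u' - (b₁ : F)) / ϖ) := by
          push_cast
          ring
        rw [this]
        exact Ow.mul_mem _ _ (pow_mem hM.coord'.mem N) hb₁
  -- comparison
  have h12 : ((b₁ : F) - (b₂ : F)) / ϖ ∈ Ow := by
    have : ((b₁ : F) - (b₂ : F)) / ϖ = (u' - (b₂ : F)) / ϖ - (u' - (b₁ : F)) / ϖ := by ring
    rw [this]
    exact Ow.sub_mem hb₂ hb₁
  obtain ⟨p, hp1, hp2, hp3⟩ := exists_monic_of_mem_both hM b₁ b₂ h12
  refine ⟨k, p, hp1, hp2, hk1, hk2, ?_⟩
  have h4 := zero_aeval_sub (A := A) (ϖ := ϖ) hk1 (hM.chart₁.le _ b₁.2) hb₁ hM.vert.const_mem p hp2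
  have : aeval u' p / ϖ = (aeval u' p - aeval (b₁ : F) p) / ϖ + aeval (b₁ : F) p / ϖ := by ring
  rw [this]
  exact Ow.add_mem _ _ h4 hp3

end FL0

end Fermat.Agent.S37.II

end
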